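import Fermat.Agent.S59.H885.LoSqSpec
import Fermat.Agent.S59.H240.UnipInput
import Fermat.Agent.S59.H899.Unram
import Fermat.Agent.S59.H127.CardTorsion
import Fermat.Agent.Ribet.H523.NonEisenstein

/-!
# Row S59, cell LO, leaf LO-SQ: the inputs FIX-W and NE-W of `loSq_of_core` (helper885)

* `fixW   : FixWStatement`     — for a semistable integral model `W` and `q ≠ p`, the inertia
  group at a place over `q` fixes a nonzero vector of `W[p]`: at a good prime inertia acts
  trivially (`S59.H899.inertia_smul_eq_self_of_good`), at a multiplicative prime `(σ - 1) x` is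
  fixed (`S59.H240.inertia_smul_sub_fixed_of_mult`);
* `nonEisW : NonEisWStatement` — `Ribet.H523.exists_prime_not_eisenstein` for the model `W` of
  `W ⊗ ℚ`.
-/

set_option autoImplicit false
set_option linter.style.haveILetI false

open WeierstrassCurve WeierstrassCurve.Affine WeierstrassCurve.Affine.Point
open scoped WeierstrassCurve.Affine

namespace Fermat.Agent.S59.H885

open Fermat.Agent.Ribet Fermat.Agent.Ribet.Spec Fermat.Agent.Ribet.H944.Wall
open Fermat.Agent.S59.H899 Fermat.Agent.S59.H240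

/-- the discriminant of `W ⊗ ℚ` -/
theorem map_Δ_ne_zero885 (W : WeierstrassCurve ℤ) (hΔ : W.Δ ≠ 0) :
    (W.map (Int.castRingHom ℚ)).Δ ≠ 0 := by
  rw [WeierstrassCurve.map_Δ]
  simpa using hΔ

/-- **NE-W.** -/
theorem nonEisW : NonEisWStatement := by
  intro W p hΔ hp hirr S
  obtain ⟨ℓ, hℓ, hℓS, -, hne⟩ :=
    Fermat.Agent.Ribet.H523.exists_prime_not_eisenstein (W.map (Int.castRingHom ℚ))
      (map_Δ_ne_zero885 W hΔ) W ⟨1, one_smul _ _⟩ p hp hirr S
  exact ⟨ℓ, hℓ, hℓS, hne⟩

/-- **FIX-W.** -/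
theorem fixW : FixWStatement := by
  intro W p q hΔ hW hp hq hqp A hA
  have hEll : ((W.map (Int.castRingHom ℚ))⁄(AlgebraicClosure ℚ)).IsElliptic := by
    constructor
    rw [isUnit_iff_ne_zero]
    show ((W.map (Int.castRingHom ℚ)).map (algebraMap ℚ (AlgebraicClosure ℚ))).Δ ≠ 0
    rw [WeierstrassCurve.map_Δ]
    exact (_root_.map_ne_zero _).mpr (map_Δ_ne_zero885 W hΔ)
  have hcard : Nat.card (WTorsion W p) = p ^ 2 :=
    Fermat.Agent.S59.H127.card_torsion_eq ((W.map (Int.castRingHom ℚ))⁄(AlgebraicClosure ℚ)) p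
  have hfin : Finite (WTorsion W p) :=
    Nat.finite_of_card_ne_zero (by rw [hcard]; exact pow_ne_zero 2 hp.ne_zero)
  have hnt : Nontrivial (WTorsion W p) := by
    have h1 : 1 < Nat.card (WTorsion W p) := by
      rw [hcard]
      have := hp.two_le
      nlinarith
    exact Finite.one_lt_card_iff_nontrivial.mp h1
  obtain ⟨v₀, hv₀⟩ := exists_ne (0 : WTorsion W p)
  have hqp' : ¬ q ∣ p := fun h => hqp ((Nat.prime_dvd_prime_iff_eq hq hp).mp h)
  have hptors : ∀ x : WTorsion W p, p • (x : (curveQbar W).Point) = 0 := by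
    intro x
    have hx := x.2
    rw [Submodule.mem_torsionBy_iff] at hx
    rwa [natCast_zsmul] at hx
  by_cases hall : ∀ σ ∈ A.inertiaSubgroupIn ℚ, ∀ x : WTorsion W p, σ • x = x
  · exact ⟨v₀, hv₀, fun σ hσ => hall σ hσ v₀⟩
  · simp only [not_forall] at hall
    obtain ⟨σ, hσ, x, hx⟩ := hall
    have hbad : (q : ℤ) ∣ W.Δ := by
      by_contra hgood
      exact hx (Subtype.ext
        (inertia_smul_eq_self_of_good W hq hgood hqp' A hA σ hσ x (hptors x)))
    have hc₄ : ¬ (q : ℤ) ∣ W.c₄ := hW q hq hbad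
    refine ⟨σ • x - x, sub_ne_zero.mpr hx, fun τ hτ => ?_⟩
    apply Subtype.ext
    exact inertia_smul_sub_fixed_of_mult W hΔ hq hc₄ hqp' A hA σ τ hσ hτ x (hptors x)

end Fermat.Agent.S59.H885
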