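import Fermat.Agent.S59.H934.LevelOpt
import Fermat.Agent.Ribet.H944.WallSpec

/-!
# Row S59, cell LO, leaf LO-SQ: "WALL-q²" (Mazur's principle at `q² ∥ M`) — top layer (helper885)

Target: `Fermat.Agent.S59.H934.LoSqStatement` (`p ∈ {3, 5}`, `W` semistable, `W[p]` irreducible,
`q ≠ p`, `q² ∥ M`, `W` residually modular of level `M`  ⊢  residually modular of level `M / q`).

This file reduces it to ONE statement about the Jacobian `J₀(N q)`, `q ∥ N`, with no elliptic
curve, no modular form and no Galois representation in it: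

* `CoreSqStatement` (**CORE-SQ**): `p` odd, `q ≠ p`, `q ∥ N`, `P` a place of `ℚ̄` over `q`,
  `a` a non-Eisenstein eigensystem.  Every NONZERO class `x ∈ J₀(N q)[p]` which is fixed by the
  inertia group `I_P` and is a Hecke eigenvector with eigenvalues `a` off a finite set has its
  eigensystem at level `N`  (`Ribet.H944.Wall.Lowered N p S a`: on `J₀(N)[p]` or on a congruent
  normalised eigenform of level `N`, off a larger finite set).

  TRUE (Néron model of `J₀(N q)` over `ℤ_q^{ur}`, `N = q M'`):  `J[p]^I = 𝒥_s[p]`, and `𝒥_s` has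
  component group `Φ` (Eisenstein), abelian part `J₀(M')³` (level `M' ∣ N`), toric part with
  character group commensurable with `(ℤ[Σ]⁰)²` (`Σ` = supersingular points = character group of
  the toric part of level `q M' = N`), unipotent part (no `p`-torsion).  No hypothesis "new" is
  needed, and there is NO exceptional case `q ≡ ± 1 mod p`.  Holds for `p ∣ N` as well.

* PROVED here:  `loSq_of_core` :
    BLR-W (`Spec.EmbedWStatement`) + Places + FIX-W + NE-W + R3S + R3'-W + CORE-SQ ⟹ LO-SQ.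
  All inputs except CORE-SQ are theorems on main (`H823.embedW`, `H584.places`,
  `H404.eigenformOfOccursAway`, `H943.Final.almostAllToWitnessW`) or proved in
  `S59/H885/LoSqFix.lean` (FIX-W, NE-W).

Levels are written as in row S36 (`JZero (N * q)`, `N.factorization q = 1`), so that the wiring
DESC / NEAT of the S36 engine (`S36/H36/Deg.lean`, `S36/H756`, `S36/H442`) applies verbatim.
-/

set_option autoImplicit false
set_option linter.style.haveILetI false

open WeierstrassCurve WeierstrassCurve.Affine WeierstrassCurve.Affine.Point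
open CuspForm ModularFormClass UpperHalfPlane ModularCurve

namespace Fermat.Agent.S59.H885

open Fermat.Agent.Ribet Fermat.Agent.Ribet.Spec Fermat.Agent.Ribet.H944.Wall

/-! ## The statements -/

/-- **CORE-SQ** (the wall at `q²`, support form, on `J₀(N q)`, `q ∥ N`). -/
def CoreSqStatement : Prop :=
  ∀ (N q p : ℕ) [NeZero N] [NeZero q], q.Prime → N.factorization q = 1 → p.Prime → p ≠ 2 →
    p ≠ q →
    ∀ P : ValuationSubring (AlgebraicClosure ℚ), P.LiesOverPrime q →
    ∀ (S : Finset ℕ) (a : ℕ → ℤ), NonEisAway p a →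
    ∀ x : JZero (N * q), x ≠ 0 → p • x = 0 → EigenAt (N * q) S a x →
      (∀ τ ∈ P.inertiaSubgroupIn ℚ, τ • x = x) → Lowered N p S a

/-- **FIX-W**: for a semistable integral model and `q ≠ p`, the inertia group at a place over `q`
fixes a nonzero vector of `W[p]` (good reduction: everything; multiplicative reduction:
`(σ - 1) x`). -/
def FixWStatement : Prop :=
  ∀ (W : WeierstrassCurve ℤ) (p q : ℕ), W.Δ ≠ 0 → W.IsSemistableModel → p.Prime → q.Prime →
    q ≠ p →
    ∀ A : ValuationSubring (AlgebraicClosure ℚ), A.LiesOverPrime q →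
      ∃ v : WTorsion W p, v ≠ 0 ∧ ∀ σ ∈ A.inertiaSubgroupIn ℚ, σ • v = v

/-- **NE-W**: the eigensystem of an irreducible `W[p]` is not Eisenstein. -/
def NonEisWStatement : Prop :=
  ∀ (W : WeierstrassCurve ℤ) (p : ℕ), W.Δ ≠ 0 → p.Prime → W.ModRepIsIrreducible p →
    NonEisAway p (fun ℓ => W.apOfModel ℓ)

/-! ## Level bookkeeping -/

/-- Transport of `J₀` along an equality of levels, compatible with Galois and Hecke. -/
theorem exists_levelCast885 (A B : ℕ) (h : A = B) [NeZero A] [NeZero B] :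
    ∃ e : JZero A ≃+ JZero B,
      (∀ (γ : GQ) (x : JZero A), e (γ • x) = γ • e x) ∧
      (∀ (ℓ : Nat.Primes) (x : JZero A),
        e (heckeOperatorBar A ℓ x) = heckeOperatorBar B ℓ (e x)) := by
  subst h
  exact ⟨AddEquiv.refl _, fun _ _ => rfl, fun _ _ => rfl⟩

/-- `q² ∣ M`, `q³ ∤ M` ⟹ `v_q(M / q) = 1`. -/
theorem factorization_div_eq_one885 {M q : ℕ} (hM : M ≠ 0) (hq : q.Prime) (hq2 : q ^ 2 ∣ M)
    (hq3 : ¬ q ^ 3 ∣ M) : (M / q).factorization q = 1 := by
  have hqM : q ∣ M := dvd_trans (dvd_pow_self q two_ne_zero) hq2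
  have h2 : 2 ≤ M.factorization q := (hq.pow_dvd_iff_le_factorization hM).1 hq2
  have h3 : ¬ 3 ≤ M.factorization q := fun h => hq3 ((hq.pow_dvd_iff_le_factorization hM).2 h)
  rw [Nat.factorization_div hqM, Finsupp.tsub_apply, hq.factorization_self]
  omega

/-! ## The glue -/

/-- **LO-SQ from CORE-SQ.** -/
theorem loSq_of_core (hE : EmbedWStatement) (hPl : PlacesStatement) (hFix : FixWStatement)
    (hNE : NonEisWStatement) (hR3 : EigenformOfOccursAwayStatement)
    (hR3' : AlmostAllToWitnessWStatement) (hCore : CoreSqStatement) :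
    Fermat.Agent.S59.H934.LoSqStatement := by
  intro p _ hp35 W hΔ hW hirr M q hM _ hM3 hq hqp hq2 hres
  have hp : p.Prime := Fact.out
  have hp2 : p ≠ 2 := by
    rcases hp35 with h | h <;> omega
  -- level bookkeeping: `M = N * q`, `q ∥ N`
  have hqM : q ∣ M := dvd_trans (dvd_pow_self q two_ne_zero) hq2
  have hfac : (M / q).factorization q = 1 :=
    factorization_div_eq_one885 hM hq hq2 (hM3 q hq hqp)
  have hMN : M = M / q * q := (Nat.div_mul_cancel hqM).symm
  have hN0 : M / q ≠ 0 := Fermat.Agent.S59.H934.div_ne_zero_of_dvd hM hqM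
  haveI : NeZero M := ⟨hM⟩
  haveI : NeZero (M / q) := ⟨hN0⟩
  haveI : NeZero q := ⟨hq.ne_zero⟩
  -- the embedding `W[p] ↪ J₀(M)`
  obtain ⟨f, 𝔪, hwit⟩ := hres
  obtain ⟨S, ι, hinj, hgal, hT⟩ := hE W p M hΔ hp hp2 hirr f 𝔪 hwit
  -- an inertia-fixed vector
  obtain ⟨A, hA, -⟩ := hPl q hq
  obtain ⟨v, hv0, hvfix⟩ := hFix W p q hΔ hW hp hq hqp A hA
  obtain ⟨e, heG, heT⟩ := exists_levelCast885 M (M / q * q) hMN
  have hpv : p • ι v = 0 := by
    rw [← map_nsmul]
    have h0 : p • v = 0 := by
      apply Subtype.ext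
      have hv := v.2
      rw [Submodule.mem_torsionBy_iff, natCast_zsmul] at hv
      simpa using hv
    rw [h0, _root_.map_zero]
  have hlow : Lowered (M / q) p S (fun ℓ => W.apOfModel ℓ) := by
    refine hCore (M / q) q p hq hfac hp hp2 (Ne.symm hqp) A hA S _ (hNE W p hΔ hp hirr)
      (e (ι v)) ?_ ?_ ?_ ?_
    · intro h
      have h1 : ι v = 0 := e.injective (by rw [h, _root_.map_zero])
      exact hv0 (hinj (by rw [h1, _root_.map_zero]))
    · rw [← map_nsmul, hpv, _root_.map_zero]
    · intro ℓ hℓ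
      rw [← heT, hT ℓ hℓ v, map_zsmul]
    · intro τ hτ
      rw [← heG, ← hgal, hvfix τ hτ]
  obtain ⟨S', g, 𝔪', hg, hmax, hpm, hc⟩ := eigenAway_of_lowered hR3 hp hlow
  exact ⟨g, 𝔪', hR3' W p (M / q) hΔ hp hp2 (Nat.pos_of_ne_zero hN0) hirr g 𝔪' _ hg hmax hpm hc⟩

end Fermat.Agent.S59.H885
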